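/-
S16 (Eisenstein ideal index), UPPER block, package SYM (helper90), part 1:
explicit cosets of `Γ₀(p)` in `SL(2, ℤ)` for `p` prime, in the S20 coset formalism
(`X p = SL(2, ℤ) ⧸ Gamma0 p`, `cosetFun f (mk g) = f ∣[k] g⁻¹`).

The `p + 1` cosets are `xInf = mk 1` and `xZero b = mk (S * T ^ b)⁻¹`, `b < p`; the corresponding
translates of a form `f` are `f` and `τ ↦ (f ∣[k] S) (b + τ)`.
-/
import Fermat.Agent.S20.Basic

set_option autoImplicit false

open UpperHalfPlane ModularForm CongruenceSubgroup Matrix.SpecialLinearGroup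
open scoped MatrixGroups ModularForm Manifold Topology

noncomputable section

namespace Fermat.Agent.S16.H90

open Fermat.Agent.S20

/-- `sig b = S * T ^ b = [[0, -1], [1, b]]`. -/
def sig (b : ℤ) : SL(2, ℤ) := ModularGroup.S * ModularGroup.T ^ b

theorem coe_sig (b : ℤ) : ((sig b : SL(2, ℤ)) : Matrix (Fin 2) (Fin 2) ℤ) = !![0, -1; 1, b] := by
  rw [sig, Matrix.SpecialLinearGroup.coe_mul, ModularGroup.coe_S, ModularGroup.coe_T_zpow]
  ext i j
  fin_cases i <;> fin_cases j <;> simp [Matrix.mul_apply, Fin.sum_univ_two]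

theorem sig_apply_one_zero (b : ℤ) : (sig b) 1 0 = 1 := by
  have := congrFun (congrFun (coe_sig b) 1) 0
  simpa using this

theorem sig_apply_one_one (b : ℤ) : (sig b) 1 1 = b := by
  have := congrFun (congrFun (coe_sig b) 1) 1
  simpa using this

theorem sig_mul_apply_one_zero (b : ℤ) (g : SL(2, ℤ)) :
    (sig b * g) 1 0 = g 0 0 + b * g 1 0 := by
  rw [Matrix.SpecialLinearGroup.coe_mul, Matrix.mul_apply, Fin.sum_univ_two, sig_apply_one_zero,
    sig_apply_one_one]
  ring

variable (p : ℕ)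

/-- The coset of the identity (the cusp `∞`). -/
def xInf : X p := QuotientGroup.mk 1

/-- The coset whose translate is `f ∣[k] (S * T ^ b)` (the cusp `0`). -/
def xZero (b : ℤ) : X p := QuotientGroup.mk (sig b)⁻¹

theorem mk_eq_xInf_iff (g : SL(2, ℤ)) : (QuotientGroup.mk g : X p) = xInf p ↔ g ∈ Gamma0 p := by
  rw [xInf, QuotientGroup.eq]
  constructor
  · intro h
    have := inv_mem h
    simpa using this
  · intro h
    simpa using inv_mem h

theorem mk_eq_xZero_iff (g : SL(2, ℤ)) (b : ℤ) :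
    (QuotientGroup.mk g : X p) = xZero p b ↔ (p : ℤ) ∣ g 0 0 + b * g 1 0 := by
  rw [xZero, QuotientGroup.eq, ← sig_mul_apply_one_zero, ← ZMod.intCast_zmod_eq_zero_iff_dvd,
    ← Gamma0_mem]
  constructor
  · intro h
    have := inv_mem h
    simpa [mul_inv_rev] using this
  · intro h
    have := inv_mem h
    simpa [mul_inv_rev] using this

variable [hp : Fact p.Prime]

/-- The explicit enumeration of the cosets. -/
def xOf : Option (Fin p) → X p
  | none => xInf p
  | some b => xZero p ((b : ℕ) : ℤ)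

theorem xOf_injective : Function.Injective (xOf p) := by
  have hp2 : (1 : ℤ) < p := by exact_mod_cast hp.out.one_lt
  intro x y hxy
  rcases x with _ | b <;> rcases y with _ | b'
  · rfl
  · exfalso
    simp only [xOf] at hxy
    rw [eq_comm, xZero, mk_eq_xInf_iff] at hxy
    have h2 : (sig ((b' : ℕ) : ℤ)) ∈ Gamma0 p := by simpa using inv_mem hxy
    rw [Gamma0_mem, sig_apply_one_zero, ZMod.intCast_zmod_eq_zero_iff_dvd] at h2
    exact absurd (Int.le_of_dvd one_pos h2) (not_le.mpr hp2)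
  · exfalso
    simp only [xOf] at hxy
    rw [xZero, mk_eq_xInf_iff] at hxy
    have h2 : (sig ((b : ℕ) : ℤ)) ∈ Gamma0 p := by simpa using inv_mem hxy
    rw [Gamma0_mem, sig_apply_one_zero, ZMod.intCast_zmod_eq_zero_iff_dvd] at h2
    exact absurd (Int.le_of_dvd one_pos h2) (not_le.mpr hp2)
  · simp only [xOf] at hxy
    rw [xZero, mk_eq_xZero_iff] at hxy
    -- entries of `(sig b)⁻¹`
    have h00 : ((sig ((b : ℕ) : ℤ))⁻¹ : SL(2, ℤ)) 0 0 = ((b : ℕ) : ℤ) := by
      rw [Matrix.SpecialLinearGroup.coe_inv, Matrix.adjugate_fin_two]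
      simp [sig_apply_one_one]
    have h10 : ((sig ((b : ℕ) : ℤ))⁻¹ : SL(2, ℤ)) 1 0 = -1 := by
      rw [Matrix.SpecialLinearGroup.coe_inv, Matrix.adjugate_fin_two]
      simp [sig_apply_one_zero]
    rw [h00, h10] at hxy
    have hmod : ((b' : ℕ) : ℤ) ≡ ((b : ℕ) : ℤ) [ZMOD (p : ℤ)] := by
      rw [Int.modEq_iff_dvd]
      convert hxy using 1
      ring
    have hnat : (b' : ℕ) ≡ (b : ℕ) [MOD p] := Int.natCast_modEq_iff.mp hmod
    have := Nat.ModEq.eq_of_lt_of_lt hnat b'.2 b.2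
    exact congrArg some (Fin.ext this.symm)

theorem xOf_surjective : Function.Surjective (xOf p) := by
  intro c
  induction c using QuotientGroup.induction_on with
  | H g =>
    by_cases hg : g ∈ Gamma0 p
    · exact ⟨none, ((mk_eq_xInf_iff p g).mpr hg).symm⟩
    · rw [Gamma0_mem] at hg
      have hpos : NeZero p := ⟨hp.out.ne_zero⟩
      set b : ZMod p := -((g 0 0 : ℤ) : ZMod p) * ((g 1 0 : ℤ) : ZMod p)⁻¹ with hb
      refine ⟨some ⟨b.val, ZMod.val_lt b⟩, ?_⟩
      simp only [xOf]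
      rw [eq_comm, mk_eq_xZero_iff, ← ZMod.intCast_zmod_eq_zero_iff_dvd]
      push_cast
      rw [ZMod.natCast_zmod_val, hb, mul_assoc, inv_mul_cancel₀ hg, mul_one, add_neg_cancel]

/-- `Option (Fin p) ≃ SL(2, ℤ) ⧸ Γ₀(p)`. -/
def xEquiv : Option (Fin p) ≃ X p :=
  Equiv.ofBijective (xOf p) ⟨xOf_injective p, xOf_surjective p⟩

@[simp] theorem xEquiv_none : xEquiv p none = xInf p := rfl

@[simp] theorem xEquiv_some (b : Fin p) : xEquiv p (some b) = xZero p ((b : ℕ) : ℤ) := rfl

omit hp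

variable {p} {k : ℤ} {F : Type*} [FunLike F ℍ ℂ] [SlashInvariantFormClass F (Γ0 p) k]

theorem cosetFun_xInf (f : F) : cosetFun f (xInf p) = f := cosetFun_one f

theorem cosetFun_xZero (f : F) (b : ℤ) (τ : ℍ) :
    cosetFun f (xZero p b) τ = ((f : ℍ → ℂ) ∣[k] ModularGroup.S) ((b : ℝ) +ᵥ τ) := by
  rw [xZero, cosetFun_mk, inv_inv, sig, SlashAction.slash_mul, SL_slash_apply,
    UpperHalfPlane.modular_T_zpow_smul, H47.denom_T_zpow, one_zpow, mul_one]

end Fermat.Agent.S16.H90
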