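/-
S16 (Eisenstein ideal index), UPPER block, package SYM (helper90), part 2:
`q`-expansions of period `p` ("expansions in `x = q^{1/p}`"):
* behaviour under real translation `τ ↦ j + τ` (`PowerSeries.rescale` by a root of unity),
* a function of period `1` expanded with period `p` (`PowerSeries.expand p`),
* compatibility with elementary symmetric functions.
Uses the landed algebra of nice functions `Fermat.Agent.S22.niceAlg` / `qExpHom`.
-/
import Fermat.Agent.S22.QAlg

set_option autoImplicit false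

open UpperHalfPlane Function Filter
open scoped Manifold Topology

noncomputable section

namespace Fermat.Agent.S16.H90

open Fermat.Agent.S22 (IsNice niceAlg qExpHom)

/-- The root of unity `exp(2πi/p)`. -/
def zetaP (p : ℕ) : ℂ := Complex.exp (2 * Real.pi * Complex.I / p)

theorem zetaP_pow_self (p : ℕ) [NeZero p] : zetaP p ^ p = 1 := by
  rw [zetaP, ← Complex.exp_nat_mul, mul_div_cancel₀ _ (Nat.cast_ne_zero.mpr (NeZero.ne p))]
  exact Complex.exp_two_pi_mul_I

theorem qParam_vadd (p : ℕ) (j : ℤ) (τ : ℍ) :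
    Periodic.qParam (p : ℝ) ((((j : ℝ) +ᵥ τ : ℍ)) : ℂ) = zetaP p ^ j * Periodic.qParam (p : ℝ) τ := by
  rw [Periodic.qParam, Periodic.qParam, zetaP, ← Complex.exp_int_mul, ← Complex.exp_add]
  congr 1
  rw [UpperHalfPlane.coe_vadd]
  push_cast
  ring

theorem qParam_one_eq_pow (p : ℕ) [NeZero p] (τ : ℍ) :
    Periodic.qParam (1 : ℝ) τ = Periodic.qParam (p : ℝ) τ ^ p := by
  rw [Periodic.qParam, Periodic.qParam, ← Complex.exp_nat_mul]
  congr 1
  have : (p : ℂ) ≠ 0 := Nat.cast_ne_zero.mpr (NeZero.ne p)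
  push_cast
  field_simp

/-- Uniqueness of `q`-expansion coefficients, for plain functions on `ℍ`. -/
theorem coeff_unique_fun {h : ℝ} (hh : 0 < h) {u : ℍ → ℂ} (hper : Periodic (u ∘ ofComplex) h)
    (hol : MDiff u) (hbd : IsBoundedAtImInfty u) {c : ℕ → ℂ}
    (hc : ∀ τ : ℍ, HasSum (fun m ↦ c m • Periodic.qParam h τ ^ m) (u τ)) (m : ℕ) :
    c m = (qExpansion h u).coeff m := by
  have han := analyticAt_cuspFunction_zero hh hper hol hbd
  have h1 := (hasFPowerSeriesOnBall_cuspFunction hh han hc).hasFPowerSeriesAt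
  have h2 := (hasFPowerSeriesOnBall_cuspFunction hh han
    (fun τ ↦ hasSum_qExpansion hh hper hol hbd τ)).hasFPowerSeriesAt
  have := h1.eq_formalMultilinearSeries h2
  simpa [FormalMultilinearSeries.coeff_ofScalars] using
    congr_arg (FormalMultilinearSeries.coeff · m) this

theorem tendsto_vadd_atImInfty' (x : ℝ) : Tendsto (fun τ : ℍ => x +ᵥ τ) atImInfty atImInfty := by
  rw [atImInfty, tendsto_comap_iff]
  have : (im ∘ fun τ : ℍ => x +ᵥ τ) = im := by
    funext τ
    simp
  rw [this]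
  exact tendsto_comap

/-- Real integer translates of a nice function are nice. -/
theorem isNice_vadd {p : ℕ} {f : ℍ → ℂ} (hf : IsNice p f) (j : ℤ) :
    IsNice p (fun τ => f ((j : ℝ) +ᵥ τ)) := by
  refine ⟨?_, ?_, hf.bdd.comp_tendsto (tendsto_vadd_atImInfty' j)⟩
  · intro w
    by_cases hw : 0 < w.im
    · have hw' : 0 < (w + (p : ℂ)).im := by simpa using hw
      have hwj : 0 < (w + (j : ℝ)).im := by simpa using hw
      have hwj' : 0 < (w + (j : ℝ) + (p : ℂ)).im := by simpa using hw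
      have h := hf.per (w + (j : ℝ))
      simp only [Function.comp_apply] at h ⊢
      rw [ofComplex_apply_of_im_pos hwj', ofComplex_apply_of_im_pos hwj] at h
      rw [ofComplex_apply_of_im_pos hw', ofComplex_apply_of_im_pos hw]
      have e1 : ((j : ℝ) +ᵥ (⟨w + (p : ℂ), hw'⟩ : ℍ)) = ⟨w + (j : ℝ) + (p : ℂ), hwj'⟩ := by
        ext
        simp only [UpperHalfPlane.coe_vadd]
        ring
      have e2 : ((j : ℝ) +ᵥ (⟨w, hw⟩ : ℍ)) = ⟨w + (j : ℝ), hwj⟩ := by
        ext
        simp only [UpperHalfPlane.coe_vadd]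
        ring
      rw [e1, e2]
      exact h
    · have hw1 : w.im ≤ 0 := not_lt.mp hw
      have hw' : (w + (p : ℂ)).im ≤ 0 := by simpa using hw1
      simp only [Function.comp_apply]
      rw [ofComplex_apply_of_im_nonpos hw', ofComplex_apply_of_im_nonpos hw1]
  · rw [UpperHalfPlane.mdifferentiable_iff]
    have h1 := UpperHalfPlane.mdifferentiable_iff.mp hf.holo
    have h2 : DifferentiableOn ℂ ((f ∘ ofComplex) ∘ fun w : ℂ => w + (j : ℝ)) {z | 0 < z.im} := by
      refine h1.comp (by fun_prop) ?_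
      intro w hw
      simpa using hw
    refine h2.congr ?_
    intro w hw
    have hw' : 0 < (w + (j : ℝ)).im := by simpa using hw
    simp only [Function.comp_apply, ofComplex_apply_of_im_pos hw, ofComplex_apply_of_im_pos hw']
    congr 1
    ext
    simp [UpperHalfPlane.coe_vadd]
    ring

/-- The period-`p` expansion of a real integer translate. -/
theorem qExpansion_vadd {p : ℕ} [NeZero p] {f : ℍ → ℂ} (hf : IsNice p f) (j : ℤ) :
    qExpansion (p : ℝ) (fun τ => f ((j : ℝ) +ᵥ τ)) =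
      PowerSeries.rescale (zetaP p ^ j) (qExpansion (p : ℝ) f) := by
  have hp : (0 : ℝ) < p := Nat.cast_pos.mpr (NeZero.pos p)
  have hn := isNice_vadd hf j
  ext n
  refine (coeff_unique_fun hp hn.per hn.holo hn.bdd
    (c := fun m => (PowerSeries.rescale (zetaP p ^ j) (qExpansion (p : ℝ) f)).coeff m)
    (fun τ => ?_) n).symm
  have h := hasSum_qExpansion hp hf.per hf.holo hf.bdd ((j : ℝ) +ᵥ τ)
  rw [qParam_vadd] at h
  convert h using 2 with m
  rw [PowerSeries.coeff_rescale, smul_eq_mul, smul_eq_mul, mul_pow]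
  ring

/-- A nice function of period `1`, expanded with period `p`. -/
theorem qExpansion_of_period_one (p : ℕ) [NeZero p] {f : ℍ → ℂ}
    (hper : Periodic (f ∘ ofComplex) (1 : ℝ)) (hhol : MDiff f) (hbdd : IsBoundedAtImInfty f) :
    qExpansion (p : ℝ) f = PowerSeries.expand p (NeZero.ne p) (qExpansion (1 : ℝ) f) := by
  have hp : (0 : ℝ) < p := Nat.cast_pos.mpr (NeZero.pos p)
  have hnice : IsNice p f := IsNice.of_one p hper hhol hbdd
  ext n
  refine (coeff_unique_fun hp hnice.per hnice.holo hnice.bdd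
    (c := fun m => (PowerSeries.expand p (NeZero.ne p) (qExpansion (1 : ℝ) f)).coeff m)
    (fun τ => ?_) n).symm
  have h := hasSum_qExpansion one_pos hper hhol hbdd τ
  rw [qParam_one_eq_pow p] at h
  have hinj : Function.Injective (fun m : ℕ => p * m) :=
    fun a b hab => Nat.eq_of_mul_eq_mul_left (NeZero.pos p) hab
  rw [← hinj.hasSum_iff]
  · convert h using 2 with m
    simp only [Function.comp_apply]
    rw [PowerSeries.coeff_expand_mul, pow_mul]
  · intro m hm
    have hnd : ¬ p ∣ m := by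
      rintro ⟨q, rfl⟩
      exact hm ⟨q, rfl⟩
    rw [PowerSeries.coeff_expand_of_not_dvd p (NeZero.ne p) _ hnd, zero_smul]

/-- Elementary symmetric functions of a finite family of nice functions: niceness and
expansion. -/
theorem isNice_esymm {p : ℕ} {ι : Type*} (s : Finset ι) (u : ι → ℍ → ℂ)
    (hu : ∀ i, IsNice p (u i)) (r : ℕ) :
    IsNice p (fun τ => ∑ t ∈ s.powersetCard r, ∏ i ∈ t, u i τ) := by
  have h : (fun τ => ∑ t ∈ s.powersetCard r, ∏ i ∈ t, u i τ) =
      ((∑ t ∈ s.powersetCard r, ∏ i ∈ t, (⟨u i, hu i⟩ : niceAlg p) : niceAlg p) : ℍ → ℂ) := by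
    funext τ
    simp
  rw [h]
  exact (∑ t ∈ s.powersetCard r, ∏ i ∈ t, (⟨u i, hu i⟩ : niceAlg p) : niceAlg p).2

theorem qExpansion_esymm {p : ℕ} [NeZero p] {ι : Type*} (s : Finset ι) (u : ι → ℍ → ℂ)
    (hu : ∀ i, IsNice p (u i)) (r : ℕ) :
    qExpansion (p : ℝ) (fun τ => ∑ t ∈ s.powersetCard r, ∏ i ∈ t, u i τ) =
      ∑ t ∈ s.powersetCard r, ∏ i ∈ t, qExpansion (p : ℝ) (u i) := by
  have h : (fun τ => ∑ t ∈ s.powersetCard r, ∏ i ∈ t, u i τ) =
      ((∑ t ∈ s.powersetCard r, ∏ i ∈ t, (⟨u i, hu i⟩ : niceAlg p) : niceAlg p) : ℍ → ℂ) := by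
    funext τ
    simp
  rw [h, ← Fermat.Agent.S22.qExpHom_apply, map_sum]
  refine Finset.sum_congr rfl fun t _ => ?_
  rw [map_prod]
  rfl

end Fermat.Agent.S16.H90
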