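/-
S16 (Eisenstein ideal index), UPPER block, package SYM / U-TR backup (helper90), part 3:
elementary symmetric functions of the `p + 1` coset translates of a modular form on `Γ₀(p)`
are level-one modular forms, with explicit `q`-expansions.

For `F : ModularForm (Γ0 p) k` put `qInf F = qExpansion 1 F` (expansion at `∞`) and
`qZero F = qExpansion p (F ∣[k] S)` (expansion at the cusp `0`, in the variable `q^{1/p}`).
The `p + 1` translates have period-`p` expansions `expand p (qInf F)` and
`rescale (ζ ^ j) (qZero F)`, `j < p`, `ζ = exp (2πi/p)`.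
-/
import Fermat.Agent.S16.H90.Cosets
import Fermat.Agent.S16.H90.QExpP
import Fermat.Agent.S20.LevelOne
import Fermat.Prelude.Thm_CongruenceSubgroup_one_mem_strictPeriods_Gamma0

set_option autoImplicit false

open UpperHalfPlane ModularForm CongruenceSubgroup Matrix.SpecialLinearGroup Function Filter
open scoped MatrixGroups ModularForm Manifold Topology

noncomputable section

namespace Fermat.Agent.S16.H90

open Fermat.Agent.S20
open Fermat.Agent.S22 (IsNice)

/-- Scaling all entries of a multiset scales its elementary symmetric functions. -/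
theorem esymm_map_const_mul {R : Type*} [CommSemiring R] (a : R) (s : Multiset R) (r : ℕ) :
    (s.map (a * ·)).esymm r = a ^ r * s.esymm r := by
  rw [Multiset.esymm, Multiset.esymm, Multiset.powersetCard_map, Multiset.map_map,
    ← Multiset.sum_map_mul_left]
  refine congrArg Multiset.sum (Multiset.map_congr rfl fun t ht => ?_)
  simp only [Function.comp_apply]
  rw [Multiset.prod_map_mul, Multiset.map_const', Multiset.prod_replicate, Multiset.map_id',
    (Multiset.mem_powersetCard.mp ht).2]

variable {p : ℕ} [hp : Fact p.Prime] {k : ℤ}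

/-- Every coset translate is a nice function of period `p`. -/
theorem isNice_cosetFun (F : ModularForm (Γ0 p) k) (c : X p) : IsNice p (cosetFun F c) :=
  ⟨cosetFun_periodic F c, mdifferentiable_cosetFun F c, isBoundedAtImInfty_cosetFun F c⟩

/-- The `r`-th elementary symmetric function of the coset translates of `F`. -/
def symFun (F : ModularForm (Γ0 p) k) (r : ℕ) (τ : ℍ) : ℂ :=
  ∑ t ∈ (Finset.univ : Finset (X p)).powersetCard r, ∏ c ∈ t, cosetFun F c τ

theorem symFun_eq_esymm (F : ModularForm (Γ0 p) k) (r : ℕ) (τ : ℍ) :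
    symFun F r τ = ((Finset.univ : Finset (X p)).val.map fun c => cosetFun F c τ).esymm r := by
  rw [Finset.esymm_map_val]
  rfl

theorem isNice_symFun (F : ModularForm (Γ0 p) k) (r : ℕ) : IsNice p (symFun F r) :=
  isNice_esymm Finset.univ (fun c => cosetFun F c) (isNice_cosetFun F) r

theorem symFun_smul (F : ModularForm (Γ0 p) k) (r : ℕ) (g : SL(2, ℤ)) (τ : ℍ) :
    symFun F r (g • τ) = denom g τ ^ (k * r) * symFun F r τ := by
  rw [symFun_eq_esymm, symFun_eq_esymm]
  have h1 : ((Finset.univ : Finset (X p)).val.map fun c => cosetFun F c (g • τ)) =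
      (((Finset.univ : Finset (X p)).val.map fun c => cosetFun F c τ).map (denom g τ ^ k * ·)) := by
    conv_rhs => rw [← Multiset.map_univ_val_equiv (MulAction.toPerm g⁻¹ : X p ≃ X p)]
    rw [Multiset.map_map, Multiset.map_map]
    refine Multiset.map_congr rfl fun c _ => ?_
    simp only [Function.comp_apply, MulAction.toPerm_apply]
    rw [cosetFun_smul_apply]
  rw [h1, esymm_map_const_mul, zpow_mul, zpow_natCast]

theorem symFun_slash (F : ModularForm (Γ0 p) k) (r : ℕ) (g : SL(2, ℤ)) :
    symFun F r ∣[k * r] g = symFun F r := by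
  funext τ
  rw [SL_slash_apply, symFun_smul, mul_right_comm,
    ← zpow_add₀ (denom_ne_zero g τ), add_neg_cancel, zpow_zero, one_mul]

theorem exists_symForm (F : ModularForm (Γ0 p) k) (r : ℕ) :
    ∃ e : ModularForm 𝒮ℒ (k * r), ⇑e = symFun F r :=
  levelOne_of_invariant (isNice_symFun F r).holo (symFun_slash F r) (isNice_symFun F r).bdd

/-- The level-one form whose underlying function is the `r`-th elementary symmetric function of
the coset translates of `F`. -/
def symForm (F : ModularForm (Γ0 p) k) (r : ℕ) : ModularForm 𝒮ℒ (k * r) :=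
  (exists_symForm F r).choose

theorem coe_symForm (F : ModularForm (Γ0 p) k) (r : ℕ) : ⇑(symForm F r) = symFun F r :=
  (exists_symForm F r).choose_spec

/-! ### The two expansions of a form on `Γ₀(p)` -/

/-- The `q`-expansion of `F` at `∞`. -/
def qInf (F : ModularForm (Γ0 p) k) : PowerSeries ℂ := qExpansion (1 : ℝ) F

/-- The expansion of `F` at the cusp `0`, in the variable `q^{1/p}`: the period-`p` expansion of
`F ∣[k] S`. -/
def qZero (F : ModularForm (Γ0 p) k) : PowerSeries ℂ :=
  qExpansion (p : ℝ) ((F : ℍ → ℂ) ∣[k] ModularGroup.S)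

omit hp in
theorem periodic_one (F : ModularForm (Γ0 p) k) : Periodic (⇑F ∘ ofComplex) (1 : ℝ) :=
  SlashInvariantFormClass.periodic_comp_ofComplex F
    (CongruenceSubgroup.one_mem_strictPeriods_Gamma0 p)

theorem isNice_coe (F : ModularForm (Γ0 p) k) : IsNice p (⇑F) := by
  have h := isNice_cosetFun F (xInf p)
  rwa [cosetFun_xInf] at h

theorem isNice_slash_S (F : ModularForm (Γ0 p) k) :
    IsNice p ((F : ℍ → ℂ) ∣[k] ModularGroup.S) := by
  have h := isNice_cosetFun F (QuotientGroup.mk ModularGroup.S⁻¹ : X p)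
  rwa [cosetFun_mk, inv_inv] at h

theorem qExpansion_coe (F : ModularForm (Γ0 p) k) :
    qExpansion (p : ℝ) (⇑F) = PowerSeries.expand p (NeZero.ne p) (qInf F) :=
  qExpansion_of_period_one p (periodic_one F) (isNice_coe F).holo (isNice_coe F).bdd

theorem qExpansion_cosetFun_xInf (F : ModularForm (Γ0 p) k) :
    qExpansion (p : ℝ) (cosetFun F (xInf p)) = PowerSeries.expand p (NeZero.ne p) (qInf F) := by
  rw [cosetFun_xInf, qExpansion_coe]

theorem qExpansion_cosetFun_xZero (F : ModularForm (Γ0 p) k) (b : ℕ) :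
    qExpansion (p : ℝ) (cosetFun F (xZero p (b : ℤ))) =
      PowerSeries.rescale (zetaP p ^ b) (qZero F) := by
  have h : cosetFun F (xZero p (b : ℤ)) =
      fun τ => ((F : ℍ → ℂ) ∣[k] ModularGroup.S) ((((b : ℤ) : ℝ)) +ᵥ τ) := by
    funext τ
    rw [cosetFun_xZero]
  rw [h, qExpansion_vadd (isNice_slash_S F) (b : ℤ), zpow_natCast, qZero]

theorem qExpansion_levelOne {m : ℤ} (e : ModularForm 𝒮ℒ m) :
    qExpansion (p : ℝ) (⇑e) = PowerSeries.expand p (NeZero.ne p) (qExpansion (1 : ℝ) e) :=
  qExpansion_of_period_one p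
    (SlashInvariantFormClass.periodic_comp_ofComplex e one_mem_strictPeriods_SL) e.holo'
    (ModularFormClass.bdd_at_infty e)

/-! ### Norm and trace -/

theorem card_X : Fintype.card (X p) = p + 1 := by
  rw [← Fintype.card_congr (xEquiv p), Fintype.card_option, Fintype.card_fin]

/-- `q`-bridge for the norm: the product of all coset translates. -/
theorem qExpansion_symFun_top (F : ModularForm (Γ0 p) k) :
    qExpansion (p : ℝ) (symFun F (p + 1)) =
      PowerSeries.expand p (NeZero.ne p) (qInf F) *
        ∏ j ∈ Finset.range p, PowerSeries.rescale (zetaP p ^ j) (qZero F) := by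
  have h1 : symFun F (p + 1) = fun τ =>
      ∑ t ∈ (Finset.univ : Finset (X p)).powersetCard (p + 1), ∏ c ∈ t, cosetFun F c τ := rfl
  rw [h1, qExpansion_esymm Finset.univ (fun c => cosetFun F c) (isNice_cosetFun F) (p + 1)]
  have h2 : (Finset.univ : Finset (X p)).powersetCard (p + 1) = {Finset.univ} := by
    rw [← card_X, ← Finset.card_univ, Finset.powersetCard_self]
  rw [h2, Finset.sum_singleton, ← Equiv.prod_comp (xEquiv p), Fintype.prod_option]
  congr 1
  · exact qExpansion_cosetFun_xInf F
  · rw [← Fin.prod_univ_eq_prod_range]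
    refine Finset.prod_congr rfl fun b _ => ?_
    exact qExpansion_cosetFun_xZero F b

/-- `q`-bridge for the trace: the sum of all coset translates. -/
theorem qExpansion_symFun_one (F : ModularForm (Γ0 p) k) :
    qExpansion (p : ℝ) (symFun F 1) =
      PowerSeries.expand p (NeZero.ne p) (qInf F) +
        ∑ j ∈ Finset.range p, PowerSeries.rescale (zetaP p ^ j) (qZero F) := by
  have h1 : symFun F 1 = fun τ =>
      ∑ t ∈ (Finset.univ : Finset (X p)).powersetCard 1, ∏ c ∈ t, cosetFun F c τ := rfl
  rw [h1, qExpansion_esymm Finset.univ (fun c => cosetFun F c) (isNice_cosetFun F) 1,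
    Finset.powersetCard_one, Finset.sum_map]
  simp only [Function.Embedding.coeFn_mk, Finset.prod_singleton]
  rw [← Equiv.sum_comp (xEquiv p), Fintype.sum_option]
  congr 1
  · exact qExpansion_cosetFun_xInf F
  · rw [← Fin.sum_univ_eq_sum_range]
    refine Finset.sum_congr rfl fun b _ => ?_
    exact qExpansion_cosetFun_xZero F b

/-- NORM: the product of the `p + 1` translates of `F` is a level-one form of weight
`k * (p + 1)`; its `q`-expansion `N(q)` satisfies
`N(x ^ p) = a(x ^ p) * ∏ j < p, a'(ζ ^ j * x)`, `a = qInf F`, `a' = qZero F`. -/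
theorem exists_levelOne_norm (F : ModularForm (Γ0 p) k) {m : ℤ} (hm : m = k * (p + 1)) :
    ∃ N : ModularForm 𝒮ℒ m,
      (∀ τ, N τ = ∏ c : X p, cosetFun F c τ) ∧
      PowerSeries.expand p (NeZero.ne p) (qExpansion (1 : ℝ) N) =
        PowerSeries.expand p (NeZero.ne p) (qInf F) *
          ∏ j ∈ Finset.range p, PowerSeries.rescale (zetaP p ^ j) (qZero F) := by
  have hm' : k * ((p + 1 : ℕ) : ℤ) = m := by
    rw [hm]
    push_cast
    ring
  refine ⟨mcast hm' (symForm F (p + 1)), fun τ => ?_, ?_⟩
  · show symForm F (p + 1) τ = _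
    rw [coe_symForm]
    have h2 : (Finset.univ : Finset (X p)).powersetCard (p + 1) = {Finset.univ} := by
      rw [← card_X, ← Finset.card_univ, Finset.powersetCard_self]
    rw [symFun, h2, Finset.sum_singleton]
  · rw [← qExpansion_levelOne]
    show qExpansion (p : ℝ) (⇑(symForm F (p + 1))) = _
    rw [coe_symForm, qExpansion_symFun_top]

/-- TRACE: the sum of the `p + 1` translates of `F` is a level-one form of weight `k`; its
`q`-expansion `T(q)` satisfies `T(x ^ p) = a(x ^ p) + ∑ j < p, a'(ζ ^ j * x)`. -/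
theorem exists_levelOne_trace (F : ModularForm (Γ0 p) k) :
    ∃ T : ModularForm 𝒮ℒ k,
      (∀ τ, T τ = ∑ c : X p, cosetFun F c τ) ∧
      PowerSeries.expand p (NeZero.ne p) (qExpansion (1 : ℝ) T) =
        PowerSeries.expand p (NeZero.ne p) (qInf F) +
          ∑ j ∈ Finset.range p, PowerSeries.rescale (zetaP p ^ j) (qZero F) := by
  have hm' : k * ((1 : ℕ) : ℤ) = k := by simp
  refine ⟨mcast hm' (symForm F 1), fun τ => ?_, ?_⟩
  · show symForm F 1 τ = _
    rw [coe_symForm, symFun, Finset.powersetCard_one, Finset.sum_map]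
    simp only [Function.Embedding.coeFn_mk, Finset.prod_singleton]
  · rw [← qExpansion_levelOne]
    show qExpansion (p : ℝ) (⇑(symForm F 1)) = _
    rw [coe_symForm, qExpansion_symFun_one]

theorem sum_zetaP_pow_mul (n : ℕ) (x : ℂ) :
    ∑ j ∈ Finset.range p, (zetaP p ^ j) ^ (p * n) * x = p * x := by
  have h : ∀ j ∈ Finset.range p, (zetaP p ^ j) ^ (p * n) * x = x := by
    intro j _
    rw [← pow_mul, mul_comm p n, ← mul_assoc, mul_comm (j * n) p, pow_mul, zetaP_pow_self, one_pow,
      one_mul]
  rw [Finset.sum_congr rfl h, Finset.sum_const, Finset.card_range, nsmul_eq_mul]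

/-- TRACE, coefficientwise: `T_n = a_n + p * a'_{p n}`. -/
theorem exists_levelOne_trace_coeff (F : ModularForm (Γ0 p) k) :
    ∃ T : ModularForm 𝒮ℒ k, (∀ τ, T τ = ∑ c : X p, cosetFun F c τ) ∧
      ∀ n, (qExpansion (1 : ℝ) T).coeff n = (qInf F).coeff n + p * (qZero F).coeff (p * n) := by
  obtain ⟨T, hT1, hT⟩ := exists_levelOne_trace F
  refine ⟨T, hT1, fun n => ?_⟩
  have h := congrArg (fun f : PowerSeries ℂ => f.coeff (p * n)) hT
  simp only [map_add, map_sum, PowerSeries.coeff_expand_mul, PowerSeries.coeff_rescale] at h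
  rw [h, sum_zetaP_pow_mul]

end Fermat.Agent.S16.H90
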