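/-
S16 (Eisenstein ideal index), UPPER block, U-TR backup (helper90), part 4:
algebra of the two expansions `qInf F` (at `∞`) and `qZero F` (at the cusp `0`) of forms on
`Γ₀(p)`, the weight-2 relation `qZero G = -(1/p) ∑ a_{pn} t^n`, and an integrality lemma for
the norm.
All algebra lemmas are stated with function-level hypotheses (`⇑H = ⇑F * ⇑G`, ...), so that they
apply to forms built with `ModularForm.mul`, `mcast`, `resLO`, subtraction, scalar multiples, ...
-/
import Fermat.Agent.S16.H90.Sym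
import Fermat.Agent.S16.H22.Exp
import Fermat.Agent.S16.H20.W2

set_option autoImplicit false

open UpperHalfPlane ModularForm CongruenceSubgroup Matrix.SpecialLinearGroup Function Filter
open scoped MatrixGroups ModularForm Manifold Topology

noncomputable section

namespace Fermat.Agent.S16.H90

open Fermat.Agent.S20
open Fermat.Agent.S22 (IsNice)

variable {p : ℕ} [hp : Fact p.Prime]

/-! ### Expansion at `∞` -/

omit hp in
theorem analyticAt_qInf {k : ℤ} (F : ModularForm (Γ0 p) k) :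
    AnalyticAt ℂ (cuspFunction (1 : ℝ) ⇑F) 0 :=
  ModularFormClass.analyticAt_cuspFunction_zero F one_pos
    (CongruenceSubgroup.one_mem_strictPeriods_Gamma0 p)

omit hp in
theorem qInf_eq_of_coe {k l : ℤ} (F : ModularForm (Γ0 p) k) (H : ModularForm (Γ0 p) l)
    (h : (⇑H : ℍ → ℂ) = ⇑F) : qInf H = qInf F := by
  rw [qInf, qInf, h]

omit hp in
theorem qInf_mul_of_coe {k l m : ℤ} (F : ModularForm (Γ0 p) k) (G : ModularForm (Γ0 p) l)
    (H : ModularForm (Γ0 p) m) (h : (⇑H : ℍ → ℂ) = ⇑F * ⇑G) : qInf H = qInf F * qInf G := by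
  rw [qInf, h, qExpansion_mul (analyticAt_qInf F) (analyticAt_qInf G)]
  rfl

omit hp in
theorem qInf_add_of_coe {k l m : ℤ} (F : ModularForm (Γ0 p) k) (G : ModularForm (Γ0 p) l)
    (H : ModularForm (Γ0 p) m) (h : (⇑H : ℍ → ℂ) = ⇑F + ⇑G) : qInf H = qInf F + qInf G := by
  rw [qInf, h, qExpansion_add (analyticAt_qInf F) (analyticAt_qInf G)]
  rfl

omit hp in
theorem qInf_sub_of_coe {k l m : ℤ} (F : ModularForm (Γ0 p) k) (G : ModularForm (Γ0 p) l)
    (H : ModularForm (Γ0 p) m) (h : (⇑H : ℍ → ℂ) = ⇑F - ⇑G) : qInf H = qInf F - qInf G := by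
  rw [qInf, h, qExpansion_sub (analyticAt_qInf F) (analyticAt_qInf G)]
  rfl

omit hp in
theorem qInf_smul_of_coe {k l : ℤ} (a : ℂ) (F : ModularForm (Γ0 p) k) (H : ModularForm (Γ0 p) l)
    (h : (⇑H : ℍ → ℂ) = a • ⇑F) : qInf H = a • qInf F := by
  rw [qInf, h, qExpansion_smul (analyticAt_qInf F) a]
  rfl

omit hp in
theorem qInf_levelOne_of_coe {k m : ℤ} (r : ModularForm 𝒮ℒ m) (H : ModularForm (Γ0 p) k)
    (h : (⇑H : ℍ → ℂ) = ⇑r) : qInf H = qExpansion (1 : ℝ) r := by
  rw [qInf, h]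

/-! ### Expansion at the cusp `0` -/

omit hp in
theorem qZero_eq_of_coe {k : ℤ} (F H : ModularForm (Γ0 p) k) (h : (⇑H : ℍ → ℂ) = ⇑F) :
    qZero H = qZero F := by
  rw [qZero, qZero, h]

theorem qZero_mul_of_coe {k l m : ℤ} (hm : m = k + l) (F : ModularForm (Γ0 p) k)
    (G : ModularForm (Γ0 p) l) (H : ModularForm (Γ0 p) m) (h : (⇑H : ℍ → ℂ) = ⇑F * ⇑G) :
    qZero H = qZero F * qZero G := by
  subst hm
  rw [qZero, h, mul_slash_SL2,
    qExpansion_mul (isNice_slash_S F).analyticAt (isNice_slash_S G).analyticAt]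
  rfl

theorem qZero_add_of_coe {k : ℤ} (F G H : ModularForm (Γ0 p) k) (h : (⇑H : ℍ → ℂ) = ⇑F + ⇑G) :
    qZero H = qZero F + qZero G := by
  rw [qZero, h, SlashAction.add_slash,
    qExpansion_add (isNice_slash_S F).analyticAt (isNice_slash_S G).analyticAt]
  rfl

theorem qZero_neg_of_coe {k : ℤ} (F H : ModularForm (Γ0 p) k) (h : (⇑H : ℍ → ℂ) = -⇑F) :
    qZero H = -qZero F := by
  rw [qZero, h, SlashAction.neg_slash, qExpansion_neg (isNice_slash_S F).analyticAt]
  rfl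

theorem qZero_sub_of_coe {k : ℤ} (F G H : ModularForm (Γ0 p) k) (h : (⇑H : ℍ → ℂ) = ⇑F - ⇑G) :
    qZero H = qZero F - qZero G := by
  rw [qZero, h, sub_eq_add_neg, SlashAction.add_slash, SlashAction.neg_slash, ← sub_eq_add_neg,
    qExpansion_sub (isNice_slash_S F).analyticAt (isNice_slash_S G).analyticAt]
  rfl

theorem qZero_smul_of_coe {k : ℤ} (a : ℂ) (F H : ModularForm (Γ0 p) k)
    (h : (⇑H : ℍ → ℂ) = a • ⇑F) : qZero H = a • qZero F := by
  rw [qZero, h, SL_smul_slash, qExpansion_smul (isNice_slash_S F).analyticAt a]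
  rfl

theorem qZero_levelOne_of_coe {m : ℤ} (r : ModularForm 𝒮ℒ m) (H : ModularForm (Γ0 p) m)
    (h : (⇑H : ℍ → ℂ) = ⇑r) :
    qZero H = PowerSeries.expand p (NeZero.ne p) (qExpansion (1 : ℝ) r) := by
  rw [qZero, h, H61.levelOne_slash_eq r ModularGroup.S, qExpansion_levelOne]

/-! ### Instances for the standard constructions -/

theorem qZero_mul {k l : ℤ} (F : ModularForm (Γ0 p) k) (G : ModularForm (Γ0 p) l) :
    qZero (F.mul G) = qZero F * qZero G :=
  qZero_mul_of_coe rfl F G (F.mul G) (ModularForm.coe_mul F G)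

theorem qInf_mul {k l : ℤ} (F : ModularForm (Γ0 p) k) (G : ModularForm (Γ0 p) l) :
    qInf (F.mul G) = qInf F * qInf G :=
  qInf_mul_of_coe F G (F.mul G) (ModularForm.coe_mul F G)

theorem qZero_add {k : ℤ} (F G : ModularForm (Γ0 p) k) : qZero (F + G) = qZero F + qZero G :=
  qZero_add_of_coe F G (F + G) rfl

omit hp in
theorem qInf_add {k : ℤ} (F G : ModularForm (Γ0 p) k) : qInf (F + G) = qInf F + qInf G :=
  qInf_add_of_coe F G (F + G) rfl

theorem qZero_sub {k : ℤ} (F G : ModularForm (Γ0 p) k) : qZero (F - G) = qZero F - qZero G :=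
  qZero_sub_of_coe F G (F - G) rfl

omit hp in
theorem qInf_sub {k : ℤ} (F G : ModularForm (Γ0 p) k) : qInf (F - G) = qInf F - qInf G :=
  qInf_sub_of_coe F G (F - G) rfl

theorem qZero_smul {k : ℤ} (a : ℂ) (F : ModularForm (Γ0 p) k) : qZero (a • F) = a • qZero F :=
  qZero_smul_of_coe a F (a • F) rfl

omit hp in
theorem qInf_smul {k : ℤ} (a : ℂ) (F : ModularForm (Γ0 p) k) : qInf (a • F) = a • qInf F :=
  qInf_smul_of_coe a F (a • F) rfl

theorem qZero_resLO {m : ℤ} (r : ModularForm 𝒮ℒ m) :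
    qZero (resLO p r) = PowerSeries.expand p (NeZero.ne p) (qExpansion (1 : ℝ) r) :=
  qZero_levelOne_of_coe r (resLO p r) rfl

omit hp in
theorem qInf_resLO {m : ℤ} (r : ModularForm 𝒮ℒ m) : qInf (resLO p r) = qExpansion (1 : ℝ) r :=
  qInf_levelOne_of_coe r (resLO p r) rfl

omit hp in
theorem qZero_mcast {k l : ℤ} (h : k = l) (F : ModularForm (Γ0 p) k) :
    qZero (mcast h F : ModularForm (Γ0 p) l) = qZero F := by
  subst h
  rfl

omit hp in
theorem qInf_mcast {k l : ℤ} (h : k = l) (F : ModularForm (Γ0 p) k) :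
    qInf (mcast h F : ModularForm (Γ0 p) l) = qInf F := by
  subst h
  rfl

/-! ### Weight 2: the expansion at `0` in terms of the expansion at `∞` -/

/-- For `G ∈ M₂(Γ₀(p))`: `qZero G = -(1/p) ∑ a_{pn}(G) t^n` (landed `H20.slash_S_eq` and
`H22.coeff_qExpansion_neg_heckeU_slash`). -/
theorem coeff_qZero_weight_two (G : ModularForm (Γ0 p) 2) (n : ℕ) :
    (qZero G).coeff n = -((p : ℂ)⁻¹ * (qInf G).coeff (p * n)) := by
  rw [qZero, Fermat.Agent.S16.H20.slash_S_eq p G,
    Fermat.Agent.S16.H22.coeff_qExpansion_neg_heckeU_slash p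
      (Fermat.Agent.S16.H22.isNice_one_coe G) 0 n, mul_comm n p, qInf]
  simp [Fermat.Agent.S28.H22.zetaBD]

/-- The series `∑ a_{pn}(G) t^n` is `-p • qZero G`. -/
theorem coeff_neg_p_smul_qZero (G : ModularForm (Γ0 p) 2) (n : ℕ) :
    ((-(p : ℂ)) • qZero G).coeff n = (qInf G).coeff (p * n) := by
  have hp0 : (p : ℂ) ≠ 0 := Nat.cast_ne_zero.mpr (NeZero.ne p)
  rw [PowerSeries.coeff_smul, coeff_qZero_weight_two, smul_eq_mul]
  field_simp

end Fermat.Agent.S16.H90
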